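/-
PROGRAMME ORD (S33), chapter SEMIRED (helper9, architect): **the abstract semistable reduction
datum**.  Two layers.

* `CompDatum L F k Ft` = ONE component of the special fibre = helper7's `FF/RED/RedDatum7.RedDatum`
  with a PARTIAL specialisation `r : Place L F → Option (Place k Ft)` (`r P = some Q` : `P` lies in the
  residue disc of the SMOOTH point `Q` of that component; `none` : `P` reduces to another component or
  lies in a node annulus).  `compat` / `good` are required on the smooth discs only.  Every file of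
  `FF/RED` (and the disc-local files of `FF/NS`) is to be copied for `CompDatum` mechanically:
  `D.r P = Q` becomes `D.r P = some Q`.
* `SemiRedDatum L F k Ft ι E` = a family of components `v : ι`, each a helper3 `Side3.Side`
  (Gauss ring `G v`, reduction `red v : G v →+* Ft`, ONE type `Ft` for all components) over ONE
  `Side3.Base` (`A`, `res`), edges `e : E` (nodes), each a helper3 `Node3.NodeChart` between
  `side (src e)` and `side (tgt e)` (branches `Qs e`, `Qt e`, coordinate `x e`, thickness `π e`, node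
  axioms `(X1) (X2) (PT) (UNIT)` of finding #335, so that (N1)–(N3) of `ORD/ANN/Node3` apply
  verbatim to `𝔻.node e`), and ONE specialisation `r : Place L F → (ι × Place k Ft) ⊕ E`
  (`inl (v, Q)` : smooth disc of `Q` on `v`; `inr e` : the annulus of the node `e`,
  `(𝔻.node e).ann = {P | r P = inr e}`).  `SemiRedDatum.comp 𝔻 v : CompDatum L F k Ft`.

Derived notions fixed here for all chapters: `IsBranch`, `IsSm`, `Gall` (functions integral on every
component), `PoleFreeAnn`, `NodeMatched` (the property (NODE): an everywhere integral function without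
poles on a node annulus has regular reductions at the two branches, with the same value).
-/
import Mathlib
import Fermat.Agent.RR.LSpace
import Fermat.Agent.MW.EMB.Value6
import Fermat.Agent.ORD.ANN.Node3

set_option autoImplicit false
set_option linter.unusedSectionVars false
set_option linter.style.longLine false

namespace Fermat.Agent.ORD.SEMIRED.SemiRedDatum9

open AlgebraicCurve Fermat.Agent.X0.FF Fermat.Agent.RR.LSpace Fermat.Agent.MW.EMB.Value6
open Fermat.Agent.ORD.ANN.Side3 Fermat.Agent.ORD.ANN.Node3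

noncomputable section

/-! ### one component -/

/-- **Component datum**: a Gauss ring of `F` with its reduction and a partial specialisation of
places onto the smooth points of the component. -/
structure CompDatum (L F k Ft : Type*) [Field L] [Field F] [Algebra L F] [Field k] [Field Ft]
    [Algebra k Ft] where
  /-- the valuation ring of the constant field -/
  A : ValuationSubring L
  /-- the residue map -/
  res : A →+* k
  res_surj : Function.Surjective res
  res_eq_zero_iff : ∀ a : A, res a = 0 ↔ ¬ IsUnit a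
  /-- the Gauss ring of the component -/
  G : Subring F
  /-- reduction of integral functions -/
  red : G →+* Ft
  const_mem : ∀ a : A, algebraMap L F a ∈ G
  red_const : ∀ a : A, red ⟨algebraMap L F a, const_mem a⟩ = algebraMap k Ft (res a)
  /-- Gauss normalisation. -/
  norm : ∀ y : F, y ≠ 0 → ∃ c : L, c ≠ 0 ∧ ∃ g : G, (g : F) = algebraMap L F c * y ∧ red g ≠ 0
  /-- saturation: the kernel of the reduction is `m_A · G`. -/
  sat : ∀ g : G, red g = 0 → ∃ c : A, ¬ IsUnit c ∧ ∃ g' : G, (g : F) = algebraMap L F c * (g' : F)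
  HL : LHyp L F
  Hk : LHyp k Ft
  /-- partial specialisation: `some Q` on the residue disc of the smooth point `Q`. -/
  r : Place L F → Option (Place k Ft)
  /-- compatibility with divisors of integral functions, at the smooth points. -/
  compat : ∀ (g : G), red g ≠ 0 → ∀ D : Divisor L F, (∀ P, D P = P.ord (g : F)) →
    ∀ Q, (∃ P, r P = some Q) → Finsupp.mapDomain r D (some Q) = Q.ord (red g)
  /-- good uniformizers on the smooth discs. -/
  good : ∀ (P : Place L F) (Q : Place k Ft), r P = some Q → ∃ u : G, P.ord (u : F) = 1 ∧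
    red u ≠ 0 ∧ ∀ P' : Place L F, r P' = some Q → 0 ≤ P'.ord (u : F) ∧ (P' ≠ P → P'.ord (u : F) = 0)

namespace CompDatum

variable {L F k Ft : Type*} [Field L] [Field F] [Algebra L F] [Field k] [Field Ft] [Algebra k Ft]
variable (D : CompDatum L F k Ft)

/-- `Q` is a smooth point of the component carrying a (nonempty) residue disc. -/
def Sm (Q : Place k Ft) : Prop := ∃ P, D.r P = some Q

/-- `s` has no pole on the residue disc of `Q`. -/
def PoleFree (s : F) (Q : Place k Ft) : Prop := ∀ P : Place L F, D.r P = some Q → 0 ≤ P.ord s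

/-- good uniformizer centred at `P` (in the disc of `Q`). -/
def IsGoodUnif (P : Place L F) (Q : Place k Ft) (u : D.G) : Prop :=
  D.r P = some Q ∧ P.ord (u : F) = 1 ∧ D.red u ≠ 0 ∧
    ∀ P' : Place L F, D.r P' = some Q → 0 ≤ P'.ord (u : F) ∧ (P' ≠ P → P'.ord (u : F) = 0)

theorem exists_isGoodUnif {P : Place L F} {Q : Place k Ft} (hP : D.r P = some Q) :
    ∃ u : D.G, D.IsGoodUnif P Q u := by
  obtain ⟨u, h1, h2, h3⟩ := D.good P Q hP
  exact ⟨u, hP, h1, h2, h3⟩

theorem coe_ne_zero_of_red_ne_zero {g : D.G} (hg : D.red g ≠ 0) : (g : F) ≠ 0 := by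
  intro h0
  apply hg
  have : g = 0 := Subtype.ext h0
  rw [this, map_zero]

/-- The constant `a ∈ A` as an element of the Gauss ring. -/
def const (a : D.A) : D.G := ⟨algebraMap L F a, D.const_mem a⟩

@[simp] theorem coe_const (a : D.A) : ((D.const a : D.G) : F) = algebraMap L F (a : L) := rfl

@[simp] theorem red_const' (a : D.A) : D.red (D.const a) = algebraMap k Ft (D.res a) :=
  D.red_const a

open Classical in
/-- `mapDomain` evaluated at a point: the sum over the fibre. -/
theorem mapDomain_apply_eq_sum {α β : Type*} (f : α → β) (v : α →₀ ℤ) (b : β) :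
    Finsupp.mapDomain f v b = ∑ a ∈ v.support.filter (fun a => f a = b), v a := by
  rw [Finsupp.mapDomain, Finsupp.sum_apply, Finsupp.sum, Finset.sum_filter]
  refine Finset.sum_congr rfl fun a _ => ?_
  rw [Finsupp.single_apply]

open Classical in
/-- **Fibre sum** on a smooth disc. -/
theorem fibre_sum (g : D.G) (hg : D.red g ≠ 0) {Q : Place k Ft} (hQ : D.Sm Q) :
    ∑ P ∈ (divOf D.HL (D.coe_ne_zero_of_red_ne_zero hg)).support.filter
      (fun P => D.r P = some Q), P.ord (g : F) = Q.ord (D.red g) := by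
  have h := D.compat g hg (divOf D.HL (D.coe_ne_zero_of_red_ne_zero hg))
    (fun P => divOf_apply D.HL _ P) Q hQ
  rw [mapDomain_apply_eq_sum] at h
  rw [← h]
  refine Finset.sum_congr ?_ fun P _ => (divOf_apply D.HL _ P).symm
  ext P
  simp only [Finset.mem_filter]

theorem res_eq_zero_of_mem_maximalIdeal {a : D.A} (ha : ¬ IsUnit a) : D.res a = 0 :=
  (D.res_eq_zero_iff a).mpr ha

theorem sm_of_r {P : Place L F} {Q : Place k Ft} (hP : D.r P = some Q) : D.Sm Q := ⟨P, hP⟩

/-- Without poles on the disc, the reduction has no pole at `Q`. -/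
theorem ord_red_nonneg {g : D.G} (hg : D.red g ≠ 0) {Q : Place k Ft} (hQ : D.Sm Q)
    (hpf : D.PoleFree (g : F) Q) : 0 ≤ Q.ord (D.red g) := by
  classical
  rw [← D.fibre_sum g hg hQ]
  exact Finset.sum_nonneg fun P hP => hpf P (Finset.mem_filter.mp hP).2

/-- Without poles on the disc, the order at any place of the disc is bounded by the order of the
reduction. -/
theorem ord_le_ord_red {g : D.G} (hg : D.red g ≠ 0) {Q : Place k Ft}
    (hpf : D.PoleFree (g : F) Q) {P : Place L F} (hP : D.r P = some Q) :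
    P.ord (g : F) ≤ Q.ord (D.red g) := by
  classical
  have hQ : D.Sm Q := ⟨P, hP⟩
  by_cases h0 : P.ord (g : F) = 0
  · rw [h0]; exact D.ord_red_nonneg hg hQ hpf
  rw [← D.fibre_sum g hg hQ]
  have hmem : P ∈ (divOf D.HL (D.coe_ne_zero_of_red_ne_zero hg)).support.filter
      (fun P => D.r P = some Q) := by
    rw [Finset.mem_filter, Finsupp.mem_support_iff, divOf_apply]
    exact ⟨h0, hP⟩
  exact Finset.single_le_sum (f := fun P : Place L F => P.ord (g : F))
    (fun P' hP' => hpf P' (Finset.mem_filter.mp hP').2) hmem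

/-- Two distinct places of the disc: the sum of the orders is bounded by the order of the
reduction. -/
theorem ord_add_ord_le_ord_red {g : D.G} (hg : D.red g ≠ 0) {Q : Place k Ft}
    (hpf : D.PoleFree (g : F) Q) {P P' : Place L F} (hP : D.r P = some Q) (hP' : D.r P' = some Q)
    (hne : P ≠ P') : P.ord (g : F) + P'.ord (g : F) ≤ Q.ord (D.red g) := by
  classical
  by_cases h0 : P.ord (g : F) = 0
  · rw [h0, zero_add]; exact D.ord_le_ord_red hg hpf hP'
  by_cases h0' : P'.ord (g : F) = 0
  · rw [h0', add_zero]; exact D.ord_le_ord_red hg hpf hP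
  rw [← D.fibre_sum g hg ⟨P, hP⟩]
  have hmem : P ∈ (divOf D.HL (D.coe_ne_zero_of_red_ne_zero hg)).support.filter
      (fun P => D.r P = some Q) := by
    rw [Finset.mem_filter, Finsupp.mem_support_iff, divOf_apply]
    exact ⟨h0, hP⟩
  have hmem' : P' ∈ (divOf D.HL (D.coe_ne_zero_of_red_ne_zero hg)).support.filter
      (fun P => D.r P = some Q) := by
    rw [Finset.mem_filter, Finsupp.mem_support_iff, divOf_apply]
    exact ⟨h0', hP'⟩
  have hsub : ({P, P'} : Finset (Place L F)) ⊆
      (divOf D.HL (D.coe_ne_zero_of_red_ne_zero hg)).support.filter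
        (fun P => D.r P = some Q) := by
    intro x hx
    rw [Finset.mem_insert, Finset.mem_singleton] at hx
    rcases hx with rfl | rfl
    · exact hmem
    · exact hmem'
  have h1 := Finset.sum_le_sum_of_subset_of_nonneg (f := fun P : Place L F => P.ord (g : F)) hsub
    (fun x hx _ => hpf x (Finset.mem_filter.mp hx).2)
  rwa [Finset.sum_pair hne] at h1

/-- If the reduction vanishes at the smooth point `Q`, there is a zero in the disc. -/
theorem exists_zero_of_ord_red_pos {g : D.G} (hg : D.red g ≠ 0) {Q : Place k Ft} (hQ : D.Sm Q)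
    (hpos : 0 < Q.ord (D.red g)) : ∃ P : Place L F, D.r P = some Q ∧ 0 < P.ord (g : F) := by
  classical
  by_contra hno
  push Not at hno
  have h := D.fibre_sum g hg hQ
  have hle : ∑ P ∈ (divOf D.HL (D.coe_ne_zero_of_red_ne_zero hg)).support.filter
      (fun P => D.r P = some Q), P.ord (g : F) ≤ 0 :=
    Finset.sum_nonpos fun P hP => hno P (Finset.mem_filter.mp hP).2
  omega

end CompDatum

/-! ### the semistable datum -/

/-- **Semistable reduction datum** for `F / L` along the valuation ring `A` of `L`: components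
`v : ι` (all with reduced function field `Ft / k`), nodes `e : E`. -/
structure SemiRedDatum (L F k Ft : Type*) [Field L] [Field F] [Algebra L F] [Field k] [Field Ft]
    [Algebra k Ft] (ι E : Type*) where
  /-- the valuation ring `A` of the constant field with its residue map -/
  B : Base L k
  HL : LHyp L F
  Hk : LHyp k Ft
  /-- the components: Gauss rings with their reductions -/
  side : ι → Side B F Ft
  /-- the graph: source and target component of a node -/
  src : E → ι
  tgt : E → ι
  /-- the nodes: branches, coordinate, thickness, annulus, axioms (X1) (X2) (PT) (UNIT) -/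
  node : ∀ e, NodeChart B HL (side (src e)) (side (tgt e)) Hk Hk
  /-- distinct nodes have distinct branches, and no point is a source branch and a target branch -/
  branch_s_inj : ∀ e e', src e = src e' → (node e).Q = (node e').Q → e = e'
  branch_t_inj : ∀ e e', tgt e = tgt e' → (node e).Q' = (node e').Q' → e = e'
  branch_st : ∀ e e', src e = tgt e' → (node e).Q ≠ (node e').Q'
  /-- specialisation: smooth disc `inl (v, Q)` or node annulus `inr e` -/
  r : Place L F → (ι × Place k Ft) ⊕ E
  /-- the annulus of the node chart is the fibre of `r` -/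
  r_ann : ∀ e P, P ∈ (node e).ann ↔ r P = Sum.inr e
  /-- smooth discs sit over non-branch points … -/
  r_sm : ∀ P v Q, r P = Sum.inl (v, Q) →
    (∀ e, ¬ (src e = v ∧ (node e).Q = Q)) ∧ ∀ e, ¬ (tgt e = v ∧ (node e).Q' = Q)
  /-- … and over all of them -/
  r_surj : ∀ v Q, (∀ e, ¬ (src e = v ∧ (node e).Q = Q)) → (∀ e, ¬ (tgt e = v ∧ (node e).Q' = Q)) →
    ∃ P, r P = Sum.inl (v, Q)
  /-- (S) fibre-sum compatibility on the smooth discs, component by component -/
  compat : ∀ v (g : (side v).G), (side v).red g ≠ 0 → ∀ D : Divisor L F,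
    (∀ P, D P = P.ord (g : F)) → ∀ Q, (∃ P, r P = Sum.inl (v, Q)) →
      Finsupp.mapDomain r D (Sum.inl (v, Q)) = Q.ord ((side v).red g)
  /-- (G) good uniformizers on the smooth discs -/
  good : ∀ (P : Place L F) v Q, r P = Sum.inl (v, Q) → ∃ u : (side v).G, P.ord (u : F) = 1 ∧
    (side v).red u ≠ 0 ∧ ∀ P' : Place L F, r P' = Sum.inl (v, Q) →
      0 ≤ P'.ord (u : F) ∧ (P' ≠ P → P'.ord (u : F) = 0)

variable {L F k Ft : Type*} [Field L] [Field F] [Algebra L F] [Field k] [Field Ft] [Algebra k Ft]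
variable {ι E : Type*}

namespace SemiRedDatum

variable (𝔻 : SemiRedDatum L F k Ft ι E)

/-- the valuation ring of the constant field -/
abbrev A : ValuationSubring L := 𝔻.B.A

/-- the residue map -/
abbrev res : 𝔻.B.A →+* k := 𝔻.B.res

/-- the Gauss ring of the component `v` -/
abbrev G (v : ι) : Subring F := (𝔻.side v).G

/-- the reduction on the component `v` -/
abbrev red (v : ι) : 𝔻.G v →+* Ft := (𝔻.side v).red

/-- the branch of the node `e` on its source component -/
abbrev Qs (e : E) : Place k Ft := (𝔻.node e).Q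

/-- the branch of the node `e` on its target component -/
abbrev Qt (e : E) : Place k Ft := (𝔻.node e).Q'

/-- the coordinate of the node `e` -/
abbrev x (e : E) : F := (𝔻.node e).x

/-- the thickness of the node `e` -/
abbrev π (e : E) : L := (𝔻.node e).π

/-- `(v, Q)` is a branch of some node. -/
def IsBranch (v : ι) (Q : Place k Ft) : Prop :=
  (∃ e, 𝔻.src e = v ∧ 𝔻.Qs e = Q) ∨ ∃ e, 𝔻.tgt e = v ∧ 𝔻.Qt e = Q

/-- `(v, Q)` is a smooth point of the special fibre. -/
def IsSm (v : ι) (Q : Place k Ft) : Prop := ¬ 𝔻.IsBranch v Q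

theorem isSm_iff (v : ι) (Q : Place k Ft) :
    𝔻.IsSm v Q ↔ (∀ e, ¬ (𝔻.src e = v ∧ 𝔻.Qs e = Q)) ∧ ∀ e, ¬ (𝔻.tgt e = v ∧ 𝔻.Qt e = Q) := by
  unfold IsSm IsBranch
  rw [not_or, not_exists, not_exists]

theorem isSm_of_r {P : Place L F} {v : ι} {Q : Place k Ft} (h : 𝔻.r P = Sum.inl (v, Q)) :
    𝔻.IsSm v Q := (𝔻.isSm_iff v Q).mpr (𝔻.r_sm P v Q h)

theorem exists_r_of_isSm {v : ι} {Q : Place k Ft} (h : 𝔻.IsSm v Q) :
    ∃ P, 𝔻.r P = Sum.inl (v, Q) :=
  𝔻.r_surj v Q ((𝔻.isSm_iff v Q).mp h).1 ((𝔻.isSm_iff v Q).mp h).2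

/-- the annulus of the node `e`. -/
def ann (e : E) : Set (Place L F) := {P | 𝔻.r P = Sum.inr e}

theorem mem_ann {e : E} {P : Place L F} : P ∈ 𝔻.ann e ↔ 𝔻.r P = Sum.inr e := Iff.rfl

theorem node_ann (e : E) : (𝔻.node e).ann = 𝔻.ann e := by
  ext P
  exact 𝔻.r_ann e P

/-- the smooth residue disc of `(v, Q)`. -/
def disc (v : ι) (Q : Place k Ft) : Set (Place L F) := {P | 𝔻.r P = Sum.inl (v, Q)}

/-- functions integral on every component. -/
def Gall : Subring F := ⨅ v, 𝔻.G v

theorem mem_Gall {s : F} : s ∈ 𝔻.Gall ↔ ∀ v, s ∈ 𝔻.G v := by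
  unfold Gall
  rw [Subring.mem_iInf]

/-- `s` has no pole on the annulus of `e`. -/
def PoleFreeAnn (s : F) (e : E) : Prop := ∀ P : Place L F, 𝔻.r P = Sum.inr e → 0 ≤ P.ord s

/-- `s` has no pole on the smooth disc of `(v, Q)`. -/
def PoleFree (s : F) (v : ι) (Q : Place k Ft) : Prop :=
  ∀ P : Place L F, 𝔻.r P = Sum.inl (v, Q) → 0 ≤ P.ord s

/-- **(NODE)**: an integral function (on the two components of the node `e`) without poles on the
annulus has reductions regular at the two branches, with the same value; the common value is `0` if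
the function has a zero on the annulus.  (A consequence of (X1), (X2), (PT), (UNIT): chapter ANN.) -/
def NodeMatched : Prop :=
  ∀ (e : E) (g : F) (hs : g ∈ 𝔻.G (𝔻.src e)) (ht : g ∈ 𝔻.G (𝔻.tgt e)), 𝔻.PoleFreeAnn g e →
    0 ≤ (𝔻.Qs e).ord (𝔻.red (𝔻.src e) ⟨g, hs⟩) ∧ 0 ≤ (𝔻.Qt e).ord (𝔻.red (𝔻.tgt e) ⟨g, ht⟩) ∧
    valF 𝔻.Hk (𝔻.Qs e) (𝔻.red (𝔻.src e) ⟨g, hs⟩) =
      valF 𝔻.Hk (𝔻.Qt e) (𝔻.red (𝔻.tgt e) ⟨g, ht⟩) ∧
    ((∃ P, 𝔻.r P = Sum.inr e ∧ 0 < P.ord g) → valF 𝔻.Hk (𝔻.Qs e) (𝔻.red (𝔻.src e) ⟨g, hs⟩) = 0)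

open Classical in
/-- the partial specialisation onto the smooth points of the component `v`. -/
def rComp (v : ι) (P : Place L F) : Option (Place k Ft) :=
  match 𝔻.r P with
  | Sum.inl (v', Q) => if v' = v then some Q else none
  | Sum.inr _ => none

theorem rComp_eq_some_iff {v : ι} {P : Place L F} {Q : Place k Ft} :
    𝔻.rComp v P = some Q ↔ 𝔻.r P = Sum.inl (v, Q) := by
  classical
  unfold rComp
  rcases h : 𝔻.r P with ⟨v', Q'⟩ | e
  · by_cases hv : v' = v
    · subst hv
      simp
    · simp only [hv, if_false]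
      constructor
      · intro h'; exact absurd h' (by simp)
      · intro h'
        have := Sum.inl.inj h'
        exact absurd (congrArg Prod.fst this) hv
  · simp

open Classical in
theorem mapDomain_rComp (v : ι) (D : Divisor L F) (Q : Place k Ft) :
    Finsupp.mapDomain (𝔻.rComp v) D (some Q) = Finsupp.mapDomain 𝔻.r D (Sum.inl (v, Q)) := by
  rw [CompDatum.mapDomain_apply_eq_sum, CompDatum.mapDomain_apply_eq_sum]
  refine Finset.sum_congr ?_ fun _ _ => rfl
  ext P
  simp only [Finset.mem_filter, rComp_eq_some_iff]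

/-- **the component `v` as a `CompDatum`**. -/
def comp (v : ι) : CompDatum L F k Ft where
  A := 𝔻.B.A
  res := 𝔻.B.res
  res_surj := 𝔻.B.res_surj
  res_eq_zero_iff := 𝔻.B.res_eq_zero_iff
  G := 𝔻.G v
  red := 𝔻.red v
  const_mem := (𝔻.side v).const_mem
  red_const := (𝔻.side v).red_const
  norm := (𝔻.side v).norm
  sat := Fermat.Agent.FF.RED.Gauss7.sat_of_norm 𝔻.B.A (𝔻.G v) (𝔻.red v) (𝔻.side v).const_mem
    (𝔻.side v).norm
  HL := 𝔻.HL
  Hk := 𝔻.Hk
  r := 𝔻.rComp v
  compat := by
    intro g hg D hD Q hQ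
    obtain ⟨P, hP⟩ := hQ
    rw [mapDomain_rComp]
    exact 𝔻.compat v g hg D hD Q ⟨P, (𝔻.rComp_eq_some_iff).mp hP⟩
  good := by
    intro P Q hP
    obtain ⟨u, h1, h2, h3⟩ := 𝔻.good P v Q ((𝔻.rComp_eq_some_iff).mp hP)
    exact ⟨u, h1, h2, fun P' hP' => h3 P' ((𝔻.rComp_eq_some_iff).mp hP')⟩

@[simp] theorem comp_G (v : ι) : (𝔻.comp v).G = 𝔻.G v := rfl
@[simp] theorem comp_red (v : ι) : (𝔻.comp v).red = 𝔻.red v := rfl
@[simp] theorem comp_A (v : ι) : (𝔻.comp v).A = 𝔻.A := rfl
@[simp] theorem comp_res (v : ι) : (𝔻.comp v).res = 𝔻.res := rfl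

theorem comp_r_eq_some_iff {v : ι} {P : Place L F} {Q : Place k Ft} :
    (𝔻.comp v).r P = some Q ↔ 𝔻.r P = Sum.inl (v, Q) := 𝔻.rComp_eq_some_iff

theorem comp_sm_iff {v : ι} {Q : Place k Ft} : (𝔻.comp v).Sm Q ↔ 𝔻.IsSm v Q := by
  constructor
  · rintro ⟨P, hP⟩
    exact 𝔻.isSm_of_r ((𝔻.comp_r_eq_some_iff).mp hP)
  · intro h
    obtain ⟨P, hP⟩ := 𝔻.exists_r_of_isSm h
    exact ⟨P, (𝔻.comp_r_eq_some_iff).mpr hP⟩

theorem comp_poleFree_iff {v : ι} {s : F} {Q : Place k Ft} :
    (𝔻.comp v).PoleFree s Q ↔ 𝔻.PoleFree s v Q := by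
  unfold CompDatum.PoleFree PoleFree
  constructor
  · intro h P hP; exact h P ((𝔻.comp_r_eq_some_iff).mpr hP)
  · intro h P hP; exact h P ((𝔻.comp_r_eq_some_iff).mp hP)

end SemiRedDatum

end

end Fermat.Agent.ORD.SEMIRED.SemiRedDatum9
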