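/-
PROGRAMME ORD (S33), chapter SEMIRED (helper9): **the adapter** from the O4 structure
`SemiRedDatum9.SemiRedDatum` to helper3's provisional `ORD/ANN/SemiRed3.SemiRed` (the structure consumed
by the twisted NS lemma `TwistedNS2` and by the inertia theorem of finding #335).

* `toSemiRed 𝔻 : SemiRed 𝔻.B 𝔻.HL (fun _ : ι => Ft) E`;
* `toSemiRed_r_eq_some_iff`, `toSemiRed_r_eq_none_iff`, `toSemiRed_nonBranch_iff`,
  `toSemiRed_smooth_iff`, `toSemiRed_fibSum`.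
-/
import Mathlib
import Fermat.Agent.ORD.SEMIRED.SemiRedDatum9
import Fermat.Agent.ORD.ANN.SemiRed3

set_option autoImplicit false
set_option linter.unusedSectionVars false
set_option linter.style.longLine false

namespace Fermat.Agent.ORD.SEMIRED.ToSemiRed9

open AlgebraicCurve Fermat.Agent.X0.FF Fermat.Agent.RR.LSpace Fermat.Agent.MW.EMB.Value6
open Fermat.Agent.ORD.ANN.Side3 Fermat.Agent.ORD.ANN.Node3 Fermat.Agent.ORD.ANN.SemiRed3
open Fermat.Agent.ORD.SEMIRED.SemiRedDatum9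

noncomputable section

variable {L F k Ft : Type*} [Field L] [Field F] [Algebra L F] [Field k] [Field Ft] [Algebra k Ft]
variable {ι E : Type*} (𝔻 : SemiRedDatum L F k Ft ι E)

/-- the smooth reduction in `Option (Σ v, Place k Ft)` form. -/
def rOpt (P : Place L F) : Option (Σ _ : ι, Place k Ft) :=
  match 𝔻.r P with
  | Sum.inl (v, Q) => some ⟨v, Q⟩
  | Sum.inr _ => none

theorem rOpt_eq_some_iff {P : Place L F} {v : ι} {Q : Place k Ft} :
    rOpt 𝔻 P = some ⟨v, Q⟩ ↔ 𝔻.r P = Sum.inl (v, Q) := by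
  unfold rOpt
  rcases h : 𝔻.r P with ⟨v', Q'⟩ | e
  · constructor
    · intro h'
      have h1 := Option.some.inj h'
      have hv : v' = v := congrArg Sigma.fst h1
      subst hv
      have hQ : Q' = Q := eq_of_heq (Sigma.mk.inj h1).2
      rw [hQ]
    · intro h'
      have h1 := Sum.inl.inj h'
      have hv : v' = v := congrArg Prod.fst h1
      have hQ : Q' = Q := congrArg Prod.snd h1
      rw [hv, hQ]
  · simp

theorem rOpt_eq_none_iff {P : Place L F} : rOpt 𝔻 P = none ↔ ∃ e, 𝔻.r P = Sum.inr e := by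
  unfold rOpt
  rcases h : 𝔻.r P with ⟨v', Q'⟩ | e
  · simp
  · simp

open Classical in
/-- **the projection to helper3's provisional datum.** -/
def toSemiRed : SemiRed 𝔻.B 𝔻.HL (fun _ : ι => Ft) E where
  Hk := fun _ => 𝔻.Hk
  side := 𝔻.side
  src := 𝔻.src
  tgt := 𝔻.tgt
  node := 𝔻.node
  r := rOpt 𝔻
  r_none_iff := by
    intro P
    rw [rOpt_eq_none_iff]
    constructor
    · rintro ⟨e, he⟩
      exact ⟨e, (𝔻.r_ann e P).mpr he⟩
    · rintro ⟨e, he⟩
      exact ⟨e, (𝔻.r_ann e P).mp he⟩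
  ann_disjoint := by
    intro e e' P h h'
    have h1 := (𝔻.r_ann e P).mp h
    have h2 := (𝔻.r_ann e' P).mp h'
    rw [h1] at h2
    exact Sum.inr.inj h2
  r_ne_src := by
    intro P e h
    have h1 := (rOpt_eq_some_iff 𝔻).mp h
    exact (𝔻.r_sm P _ _ h1).1 e ⟨rfl, rfl⟩
  r_ne_tgt := by
    intro P e h
    have h1 := (rOpt_eq_some_iff 𝔻).mp h
    exact (𝔻.r_sm P _ _ h1).2 e ⟨rfl, rfl⟩
  compat := by
    intro v φ hφ c hc Q hs ht
    -- the smooth point
    have hsm : ∃ P, 𝔻.r P = Sum.inl (v, Q) := by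
      refine 𝔻.r_surj v Q (fun e he => hs e ?_) (fun e he => ht e ?_)
      · rw [← he.1, ← he.2]
      · rw [← he.1, ← he.2]
    have hc0 : c ≠ 0 := hc.c_ne_zero
    have hg0 : algebraMap L F c * φ ≠ 0 := hc.smul_ne_zero
    have hord : ∀ P : Place L F, P.ord (algebraMap L F c * φ) = P.ord φ := by
      intro P
      rw [P.ord_mul ((map_ne_zero _).mpr hc0) hφ, ffp_ord_algebraMap, zero_add]
    have h := 𝔻.compat v ⟨_, hc.mem⟩ (by rw [← hc.nred_eq]; exact hc.nred_ne_zero)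
      (divOf 𝔻.HL hφ) (fun P => by rw [divOf_apply, hord]) Q hsm
    rw [CompDatum.mapDomain_apply_eq_sum] at h
    rw [hc.nred_eq, ← h]
    refine Finset.sum_congr ?_ fun P _ => (divOf_apply 𝔻.HL hφ P).symm
    ext P
    simp only [Finset.mem_filter, rOpt_eq_some_iff]

@[simp] theorem toSemiRed_r (P : Place L F) : (toSemiRed 𝔻).r P = rOpt 𝔻 P := rfl

theorem toSemiRed_r_eq_some_iff {P : Place L F} {v : ι} {Q : Place k Ft} :
    (toSemiRed 𝔻).r P = some ⟨v, Q⟩ ↔ 𝔻.r P = Sum.inl (v, Q) := rOpt_eq_some_iff 𝔻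

theorem toSemiRed_r_eq_none_iff {P : Place L F} :
    (toSemiRed 𝔻).r P = none ↔ ∃ e, 𝔻.r P = Sum.inr e := rOpt_eq_none_iff 𝔻

theorem toSemiRed_smooth_iff {P : Place L F} :
    (toSemiRed 𝔻).Smooth P ↔ ∃ v Q, 𝔻.r P = Sum.inl (v, Q) := by
  unfold SemiRed.Smooth
  rw [toSemiRed_r]
  unfold rOpt
  rcases h : 𝔻.r P with ⟨v', Q'⟩ | e
  · simp
  · simp

theorem toSemiRed_nonBranch_iff {v : ι} {Q : Place k Ft} :
    (toSemiRed 𝔻).NonBranch v Q ↔ 𝔻.IsSm v Q := by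
  rw [𝔻.isSm_iff]
  unfold SemiRed.NonBranch
  constructor
  · rintro ⟨h1, h2⟩
    refine ⟨fun e he => h1 e ?_, fun e he => h2 e ?_⟩
    · show (⟨𝔻.src e, (𝔻.node e).Q⟩ : Σ _ : ι, Place k Ft) = ⟨v, Q⟩
      rw [← he.1, ← he.2]
    · show (⟨𝔻.tgt e, (𝔻.node e).Q'⟩ : Σ _ : ι, Place k Ft) = ⟨v, Q⟩
      rw [← he.1, ← he.2]
  · rintro ⟨h1, h2⟩
    refine ⟨fun e he => h1 e ?_, fun e he => h2 e ?_⟩
    · have hv : 𝔻.src e = v := congrArg Sigma.fst he
      exact ⟨hv, eq_of_heq (Sigma.mk.inj he).2⟩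
    · have hv : 𝔻.tgt e = v := congrArg Sigma.fst he
      exact ⟨hv, eq_of_heq (Sigma.mk.inj he).2⟩

open Classical in
theorem toSemiRed_fibSum (D : Divisor L F) (v : ι) (Q : Place k Ft) :
    (toSemiRed 𝔻).fibSum D v Q = Finsupp.mapDomain 𝔻.r D (Sum.inl (v, Q)) := by
  unfold SemiRed.fibSum
  rw [CompDatum.mapDomain_apply_eq_sum]
  refine Finset.sum_congr ?_ fun _ _ => rfl
  ext P
  simp only [Finset.mem_filter, toSemiRed_r, rOpt_eq_some_iff]

end

end Fermat.Agent.ORD.SEMIRED.ToSemiRed9
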